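/-
The projective line over a commutative ring as primitive column vectors up to proportionality,
with the action of `GL(2, R)`, and the action of `SL(2, ℤ)` on `P1 (ZMod N)`.
-/
import Mathlib

set_option autoImplicit false

open Matrix
open scoped MatrixGroups

namespace Fermat.Agent.MF.Cosets

variable {R : Type*} [CommRing R]

/-- The cross product of two vectors in `R²`. -/
def cross (v w : Fin 2 → R) : R := v 0 * w 1 - v 1 * w 0

theorem cross_swap (v w : Fin 2 → R) : cross v w = - cross w v := by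
  simp only [cross]; ring

theorem cross_self (v : Fin 2 → R) : cross v v = 0 := by
  simp only [cross]; ring

theorem cross_trans {u v w : Fin 2 → R} (hv : IsCoprime (v 0) (v 1))
    (h₁ : cross u v = 0) (h₂ : cross v w = 0) : cross u w = 0 := by
  obtain ⟨x, y, hxy⟩ := hv
  simp only [cross] at h₁ h₂ ⊢
  linear_combination (x * w 0 + y * w 1) * h₁ + (x * u 0 + y * u 1) * h₂ -
    (u 0 * w 1 - u 1 * w 0) * hxy

theorem cross_mulVec (M : Matrix (Fin 2) (Fin 2) R) (v w : Fin 2 → R) :
    cross (M *ᵥ v) (M *ᵥ w) = M.det * cross v w := by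
  simp only [cross, Matrix.mulVec, dotProduct, Fin.sum_univ_two, Matrix.det_fin_two]
  ring

/-- The setoid of proportionality on primitive vectors. -/
def crossSetoid (R : Type*) [CommRing R] :
    Setoid {v : Fin 2 → R // IsCoprime (v 0) (v 1)} where
  r v w := cross v.1 w.1 = 0
  iseqv := ⟨fun v => cross_self v.1, fun {v w} h => by rw [cross_swap, h, neg_zero],
    fun {_ v _} h h' => cross_trans v.2 h h'⟩

/-- The projective line over `R`: primitive column vectors up to proportionality. -/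
def P1 (R : Type*) [CommRing R] : Type _ := Quotient (crossSetoid R)

/-- The point of `P1 R` defined by a primitive vector. -/
def P1.mk (v : Fin 2 → R) (hv : IsCoprime (v 0) (v 1)) : P1 R :=
  Quotient.mk (crossSetoid R) ⟨v, hv⟩

theorem P1.mk_eq_mk_iff {v w : Fin 2 → R} (hv : IsCoprime (v 0) (v 1))
    (hw : IsCoprime (w 0) (w 1)) : P1.mk v hv = P1.mk w hw ↔ cross v w = 0 :=
  Quotient.eq

theorem P1.ind {P : P1 R → Prop} (h : ∀ v hv, P (P1.mk v hv)) (x : P1 R) : P x :=
  Quotient.inductionOn x fun v => h v.1 v.2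

theorem exists_unit_smul_of_cross_eq_zero {v w : Fin 2 → R} (hv : IsCoprime (v 0) (v 1))
    (hw : IsCoprime (w 0) (w 1)) (h : cross v w = 0) : ∃ u : Rˣ, w = (u : R) • v := by
  obtain ⟨x, y, hxy⟩ := hv
  obtain ⟨x', y', hxy'⟩ := hw
  simp only [cross] at h
  have h0 : w 0 = (x * w 0 + y * w 1) * v 0 := by linear_combination (-(w 0)) * hxy - y * h
  have h1 : w 1 = (x * w 0 + y * w 1) * v 1 := by linear_combination (-(w 1)) * hxy + x * h
  have hu : IsUnit (x * w 0 + y * w 1) :=
    IsUnit.of_mul_eq_one (x' * v 0 + y' * v 1) (by linear_combination hxy' - x' * h0 - y' * h1)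
  refine ⟨hu.unit, funext fun i => ?_⟩
  fin_cases i
  · simpa [hu.unit_spec] using h0
  · simpa [hu.unit_spec] using h1

theorem isCoprime_mulVec (M : GL (Fin 2) R) {v : Fin 2 → R} (hv : IsCoprime (v 0) (v 1)) :
    IsCoprime (((M : Matrix (Fin 2) (Fin 2) R) *ᵥ v) 0)
      (((M : Matrix (Fin 2) (Fin 2) R) *ᵥ v) 1) := by
  obtain ⟨x, y, hxy⟩ := hv
  have h : ((M⁻¹ : GL (Fin 2) R) : Matrix (Fin 2) (Fin 2) R) *ᵥ
      ((M : Matrix (Fin 2) (Fin 2) R) *ᵥ v) = v := by
    rw [Matrix.mulVec_mulVec, ← Units.val_mul, inv_mul_cancel, Units.val_one, Matrix.one_mulVec]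
  generalize (M : Matrix (Fin 2) (Fin 2) R) *ᵥ v = w at h ⊢
  generalize ((M⁻¹ : GL (Fin 2) R) : Matrix (Fin 2) (Fin 2) R) = A at h
  have h0 := congrFun h 0
  have h1 := congrFun h 1
  simp only [Matrix.mulVec, dotProduct, Fin.sum_univ_two] at h0 h1
  exact ⟨x * A 0 0 + y * A 1 0, x * A 0 1 + y * A 1 1, by linear_combination hxy + x * h0 + y * h1⟩

instance P1.instMulAction : MulAction (GL (Fin 2) R) (P1 R) where
  smul M := Quotient.map (fun v => ⟨(M : Matrix (Fin 2) (Fin 2) R) *ᵥ v.1, isCoprime_mulVec M v.2⟩)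
    fun v w h => by
      show cross _ _ = 0
      rw [cross_mulVec, show cross v.1 w.1 = 0 from h, mul_zero]
  mul_smul M M' x := Quotient.inductionOn x fun v => Quotient.sound (by
    show cross ((↑(M * M') : Matrix (Fin 2) (Fin 2) R) *ᵥ v.1)
      ((M : Matrix (Fin 2) (Fin 2) R) *ᵥ ((M' : Matrix (Fin 2) (Fin 2) R) *ᵥ v.1)) = 0
    rw [Units.val_mul, ← Matrix.mulVec_mulVec]
    exact cross_self _)
  one_smul x := Quotient.inductionOn x fun v => Quotient.sound (by
    show cross ((↑(1 : GL (Fin 2) R) : Matrix (Fin 2) (Fin 2) R) *ᵥ v.1) v.1 = 0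
    rw [Units.val_one, Matrix.one_mulVec]
    exact cross_self _)

theorem P1.smul_mk (M : GL (Fin 2) R) {v : Fin 2 → R} (hv : IsCoprime (v 0) (v 1)) :
    M • P1.mk v hv = P1.mk _ (isCoprime_mulVec M hv) := rfl

/-- Reduction of `SL(2, ℤ)` modulo `N`, as invertible matrices. -/
def redN (N : ℕ) : SL(2, ℤ) →* GL (Fin 2) (ZMod N) :=
  Matrix.SpecialLinearGroup.toGL.comp (Matrix.SpecialLinearGroup.map (Int.castRingHom (ZMod N)))

instance P1.instMulActionSL2Z (N : ℕ) : MulAction SL(2, ℤ) (P1 (ZMod N)) :=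
  MulAction.compHom _ (redN N)

theorem P1.sl_smul_def {N : ℕ} (g : SL(2, ℤ)) (x : P1 (ZMod N)) : g • x = redN N g • x := rfl

theorem P1.finite [Finite R] : Finite (P1 R) :=
  Quotient.finite (crossSetoid R)

end Fermat.Agent.MF.Cosets
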