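/-
`SL(2, ℤ) ⧸ Γ₀(N) ≃ P1 (ZMod N)` and the index `ψ(N)`.
-/
import Fermat.Agent.MF.Cosets.P1
import Fermat.Prelude.Def_ModularCurve_GenusNumerics

set_option autoImplicit false

open Matrix CongruenceSubgroup
open ModularCurve (dedekindPsi nuTwo nuThree cuspCount)
open scoped MatrixGroups

namespace Fermat.Agent.MF.Cosets

/-- The coset space `SL(2, ℤ) ⧸ Γ₀(N)`; `g ↦` the first column of `g` modulo `N`. -/
abbrev X0 (N : ℕ) : Type := SL(2, ℤ) ⧸ Gamma0 N

theorem mk_eq_mk_iff {N : ℕ} {g h : SL(2, ℤ)} :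
    (QuotientGroup.mk g : X0 N) = QuotientGroup.mk h ↔
      (N : ℤ) ∣ g 0 0 * h 1 0 - g 1 0 * h 0 0 := by
  rw [QuotientGroup.eq, Gamma0_mem, ZMod.intCast_zmod_eq_zero_iff_dvd]
  have : (g⁻¹ * h) 1 0 = g 0 0 * h 1 0 - g 1 0 * h 0 0 := by
    simp [Matrix.mul_apply, Fin.sum_univ_two, SpecialLinearGroup.coe_inv, Matrix.adjugate_fin_two]
    ring
  rw [this]

theorem det_entries (g : SL(2, ℤ)) : g 0 0 * g 1 1 - g 0 1 * g 1 0 = 1 := by
  rw [← Matrix.det_fin_two]; exact g.det_coe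

/-- The first column of an element of `SL(2, ℤ)`, modulo `N`. -/
def colMod (N : ℕ) (g : SL(2, ℤ)) : Fin 2 → ZMod N := fun i => ((g i 0 : ℤ) : ZMod N)

theorem isCoprime_colMod (N : ℕ) (g : SL(2, ℤ)) :
    IsCoprime (colMod N g 0) (colMod N g 1) := by
  refine ⟨((g 1 1 : ℤ) : ZMod N), -((g 0 1 : ℤ) : ZMod N), ?_⟩
  have := congrArg (Int.cast : ℤ → ZMod N) (det_entries g)
  push_cast at this
  simp only [colMod]
  linear_combination this

theorem cross_colMod (N : ℕ) (g h : SL(2, ℤ)) :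
    cross (colMod N g) (colMod N h) = ((g 0 0 * h 1 0 - g 1 0 * h 0 0 : ℤ) : ZMod N) := by
  simp [cross, colMod]

theorem redN_mulVec_colMod (N : ℕ) (g h : SL(2, ℤ)) :
    (redN N g : Matrix (Fin 2) (Fin 2) (ZMod N)) *ᵥ colMod N h = colMod N (g * h) := by
  funext i
  simp [colMod, redN, Matrix.mulVec, dotProduct, Matrix.mul_apply, Fin.sum_univ_two]

/-- The map underlying `cosetEquiv`. -/
def cosetToP1 (N : ℕ) : X0 N → P1 (ZMod N) :=
  Quotient.lift (fun g => P1.mk (colMod N g) (isCoprime_colMod N g)) fun g h hgh => by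
    rw [P1.mk_eq_mk_iff, cross_colMod, ZMod.intCast_zmod_eq_zero_iff_dvd, ← mk_eq_mk_iff]
    exact Quotient.sound hgh

theorem cosetToP1_mk (N : ℕ) (g : SL(2, ℤ)) :
    cosetToP1 N (QuotientGroup.mk g) = P1.mk (colMod N g) (isCoprime_colMod N g) := rfl

theorem cosetToP1_injective (N : ℕ) : Function.Injective (cosetToP1 N) := by
  intro q q'
  induction q using QuotientGroup.induction_on with
  | _ g =>
    induction q' using QuotientGroup.induction_on with
    | _ h =>
      rw [cosetToP1_mk, cosetToP1_mk, P1.mk_eq_mk_iff, cross_colMod,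
        ZMod.intCast_zmod_eq_zero_iff_dvd, mk_eq_mk_iff]
      exact id

/-- Every primitive vector modulo `N` is the first column of an element of `SL(2, ℤ)`. -/
theorem exists_colMod_eq (N : ℕ) [NeZero N] {v : Fin 2 → ZMod N} (hv : IsCoprime (v 0) (v 1)) :
    ∃ g : SL(2, ℤ), colMod N g = v := by
  obtain ⟨x, y, hxy⟩ := hv
  set c : ℕ := (v 1).val + N with hc
  have hc0 : c ≠ 0 := by have := NeZero.ne N; omega
  haveI : NeZero c := ⟨hc0⟩
  have hcv : ((c : ℤ) : ZMod N) = v 1 := by simp [hc]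
  set d : ℕ := Nat.gcd c N with hd
  have hdN : d ∣ N := Nat.gcd_dvd_right c N
  set a : ℤ := ((v 0).val : ℤ) with ha
  have hav : (a : ZMod N) = v 0 := by simp [ha]
  have hu : IsUnit (a : ZMod d) := by
    have h1 := congrArg (ZMod.castHom hdN (ZMod d)) hxy
    rw [map_one, map_add, map_mul, map_mul, ← hav, ← hcv, map_intCast, map_intCast] at h1
    have h2 : ((c : ℤ) : ZMod d) = 0 :=
      (ZMod.intCast_zmod_eq_zero_iff_dvd _ _).2 (by exact_mod_cast Nat.gcd_dvd_left c N)
    rw [h2, mul_zero, add_zero] at h1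
    exact IsUnit.of_mul_eq_one_right _ h1
  obtain ⟨w, hw⟩ := ZMod.unitsMap_surjective (Nat.gcd_dvd_left c N) hu.unit
  set a' : ℕ := (w : ZMod c).val with ha'
  have hcop : Nat.Coprime a' c := ZMod.val_coe_unit_coprime w
  have hmod : ((a' : ℤ) : ZMod d) = (a : ZMod d) := by
    have h3 := congrArg Units.val hw
    rw [ZMod.unitsMap_val, IsUnit.unit_spec] at h3
    rw [← h3, Int.cast_natCast, ha', ZMod.natCast_val]
  obtain ⟨k, hk⟩ := (ZMod.intCast_eq_intCast_iff_dvd_sub _ _ _).1 hmod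
  have hb : (d : ℤ) = c * Nat.gcdA c N + N * Nat.gcdB c N := Nat.gcd_eq_gcd_ab c N
  have hco : IsCoprime ((a' : ℤ) + (k * Nat.gcdA c N) * c) (c : ℤ) :=
    (Nat.isCoprime_iff_coprime.2 hcop).add_mul_right_left _
  obtain ⟨g, hg0, hg1⟩ := hco.exists_SL2_col 0
  refine ⟨g, funext fun i => ?_⟩
  fin_cases i
  · show ((g 0 0 : ℤ) : ZMod N) = v 0
    rw [hg0, ← hav, ZMod.intCast_eq_intCast_iff_dvd_sub]
    exact ⟨k * Nat.gcdB c N, by linear_combination hk + k * hb⟩
  · show ((g 1 0 : ℤ) : ZMod N) = v 1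
    rw [hg1, hcv]

/-- `SL(2, ℤ) ⧸ Γ₀(N) ≃ P1 (ℤ/N)`, by the first column. -/
noncomputable def cosetEquiv (N : ℕ) [NeZero N] : X0 N ≃ P1 (ZMod N) :=
  Equiv.ofBijective (cosetToP1 N) ⟨cosetToP1_injective N, P1.ind fun v hv => by
    obtain ⟨g, rfl⟩ := exists_colMod_eq N hv
    exact ⟨QuotientGroup.mk g, rfl⟩⟩

theorem cosetEquiv_mk (N : ℕ) [NeZero N] (g : SL(2, ℤ)) :
    cosetEquiv N (QuotientGroup.mk g) = P1.mk (colMod N g) (isCoprime_colMod N g) := rfl

theorem cosetEquiv_smul (N : ℕ) [NeZero N] (g : SL(2, ℤ)) (q : X0 N) :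
    cosetEquiv N (g • q) = g • cosetEquiv N q := by
  induction q using QuotientGroup.induction_on with
  | _ h =>
    rw [MulAction.Quotient.smul_mk, smul_eq_mul, cosetEquiv_mk, cosetEquiv_mk, P1.sl_smul_def,
      P1.smul_mk, P1.mk_eq_mk_iff, redN_mulVec_colMod]
    exact cross_self _

/-- The indicator of squarefree numbers. -/
def sqfIndicator : ArithmeticFunction ℕ :=
  ⟨fun m => if Squarefree m then 1 else 0, if_neg not_squarefree_zero⟩

theorem sqfIndicator_apply (m : ℕ) : sqfIndicator m = if Squarefree m then 1 else 0 := rfl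

theorem dedekindPsi_eq_mul_apply (n : ℕ) :
    dedekindPsi n = (sqfIndicator * ArithmeticFunction.id) n := by
  rw [ArithmeticFunction.mul_apply, dedekindPsi, Finset.sum_filter]
  simp only [sqfIndicator_apply, ArithmeticFunction.id_apply]
  rw [Nat.sum_divisorsAntidiagonal (fun a b => (if Squarefree a then 1 else 0) * b)]
  exact Finset.sum_congr rfl fun d _ => by split_ifs <;> simp

theorem dedekindPsi_mul_of_coprime {m n : ℕ} (h : m.Coprime n) :
    dedekindPsi (m * n) = dedekindPsi m * dedekindPsi n := by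
  simp only [dedekindPsi_eq_mul_apply]
  refine ArithmeticFunction.IsMultiplicative.map_mul_of_coprime
    (ArithmeticFunction.IsMultiplicative.mul ⟨?_, fun {a b} hab => ?_⟩
      ArithmeticFunction.isMultiplicative_id) h
  · simp [sqfIndicator_apply]
  · simp only [sqfIndicator_apply, Nat.squarefree_mul hab]
    by_cases ha : Squarefree a <;> by_cases hb : Squarefree b <;> simp [ha, hb]

theorem dedekindPsi_prime_pow {p k : ℕ} (hp : p.Prime) (hk : k ≠ 0) :
    dedekindPsi (p ^ k) = p ^ k + p ^ (k - 1) := by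
  rw [dedekindPsi]
  have : (p ^ k).divisors.filter Squarefree = {1, p} := by
    ext d
    rw [Finset.mem_filter, Nat.mem_divisors_prime_pow hp, Finset.mem_insert, Finset.mem_singleton]
    constructor
    · rintro ⟨⟨j, _, rfl⟩, hsq⟩
      rcases j with - | j
      · simp
      · rcases (Nat.squarefree_pow_iff hp.one_lt.ne' j.succ_ne_zero).1 hsq with ⟨_, hj⟩
        obtain rfl : j = 0 := Nat.succ.inj hj
        simp
    · rintro (rfl | rfl)
      · exact ⟨⟨0, zero_le, (pow_zero p).symm⟩, squarefree_one⟩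
      · exact ⟨⟨1, Nat.one_le_iff_ne_zero.2 hk, (pow_one d).symm⟩, hp.squarefree⟩
  rw [this, Finset.sum_pair hp.one_lt.ne, Nat.div_one]
  obtain ⟨j, rfl⟩ := Nat.exists_eq_succ_of_ne_zero hk
  simp [pow_succ, Nat.mul_div_cancel _ hp.pos]

/-- For a local ring, `P1 R` consists of the `(x : 1)` and the `(1 : y)` with `y` a non-unit. -/
theorem nonempty_P1_equiv_of_isLocalRing (R : Type*) [CommRing R] [IsLocalRing R] :
    Nonempty (P1 R ≃ R ⊕ {y : R // ¬IsUnit y}) := by
  let f : R ⊕ {y : R // ¬IsUnit y} → P1 R := Sum.elim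
    (fun x => P1.mk ![x, 1] (isCoprime_one_right (R := R)))
    (fun y => P1.mk ![1, y.1] (isCoprime_one_left (R := R)))
  refine ⟨(Equiv.ofBijective f ⟨?_, P1.ind fun v hv => ?_⟩).symm⟩
  · rintro (x | ⟨y, hy⟩) (x' | ⟨y', hy'⟩) h <;>
      simp only [f, Sum.elim_inl, Sum.elim_inr, P1.mk_eq_mk_iff, cross, Matrix.cons_val_zero,
        Matrix.cons_val_one] at h
    · rw [mul_one, one_mul, sub_eq_zero] at h; rw [h]
    · exact absurd (IsUnit.of_mul_eq_one_right x (by linear_combination h)) hy'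
    · exact absurd (IsUnit.of_mul_eq_one_right x' (by linear_combination -h)) hy
    · have : y = y' := by linear_combination -h
      subst this; rfl
  · by_cases h1 : IsUnit (v 1)
    · refine ⟨Sum.inl (v 0 * ↑h1.unit⁻¹), ?_⟩
      simp only [f, Sum.elim_inl, P1.mk_eq_mk_iff, cross, Matrix.cons_val_zero,
        Matrix.cons_val_one]
      linear_combination v 0 * h1.val_inv_mul
    · obtain ⟨x, y, hxy⟩ := hv
      have h0 : IsUnit (v 0) := by
        rcases IsLocalRing.isUnit_or_isUnit_of_add_one hxy with h | h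
        · exact isUnit_of_mul_isUnit_right h
        · exact absurd (isUnit_of_mul_isUnit_right h) h1
      have hy : ¬IsUnit (v 1 * ↑h0.unit⁻¹) := fun h => h1 (isUnit_of_mul_isUnit_left h)
      refine ⟨Sum.inr ⟨_, hy⟩, ?_⟩
      simp only [f, Sum.elim_inr, P1.mk_eq_mk_iff, cross, Matrix.cons_val_zero,
        Matrix.cons_val_one]
      linear_combination -(v 1) * h0.val_inv_mul

theorem card_P1_prime_pow {p k : ℕ} (hp : p.Prime) (hk : k ≠ 0) :
    Nat.card (P1 (ZMod (p ^ k))) = p ^ k + p ^ (k - 1) := by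
  haveI := Fact.mk hp
  haveI : NeZero (p ^ k) := ⟨pow_ne_zero k hp.ne_zero⟩
  haveI : Fact (1 < p ^ k) := ⟨Nat.one_lt_pow hk hp.one_lt⟩
  haveI : IsLocalRing (ZMod (p ^ k)) := by
    refine IsLocalRing.of_isUnit_or_isUnit_one_sub_self fun a => ?_
    obtain ⟨m, rfl⟩ := ZMod.intCast_surjective a
    rw [← Int.cast_one, ← Int.cast_sub, ZMod.coe_int_isUnit_iff_isCoprime,
      ZMod.coe_int_isUnit_iff_isCoprime, Nat.cast_pow, IsCoprime.pow_left_iff (Nat.pos_of_ne_zero hk),
      IsCoprime.pow_left_iff (Nat.pos_of_ne_zero hk),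
      (Nat.prime_iff_prime_int.1 hp).coprime_iff_not_dvd,
      (Nat.prime_iff_prime_int.1 hp).coprime_iff_not_dvd]
    by_contra h
    push_neg at h
    exact (Nat.prime_iff_prime_int.1 hp).not_dvd_one (by simpa using dvd_add h.1 h.2)
  obtain ⟨e⟩ := nonempty_P1_equiv_of_isLocalRing (ZMod (p ^ k))
  classical
  rw [Nat.card_congr e, Nat.card_sum, Nat.card_zmod, Nat.card_eq_fintype_card,
    Fintype.card_subtype_compl, ZMod.card, ← Fintype.card_congr (Equiv.ofBijective (fun u : (ZMod (p ^ k))ˣ =>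
      (⟨u.1, u.isUnit⟩ : {x // IsUnit x}))
      ⟨fun u v h => Units.ext (congrArg Subtype.val h), fun x => ⟨x.2.unit, Subtype.ext rfl⟩⟩),
    ZMod.card_units_eq_totient, Nat.totient_prime_pow hp (Nat.pos_of_ne_zero hk)]
  congr 1
  obtain ⟨j, rfl⟩ := Nat.exists_eq_succ_of_ne_zero hk
  simp only [Nat.succ_sub_one, pow_succ, Nat.mul_sub, mul_one]
  exact Nat.sub_sub_self (Nat.le_mul_of_pos_right _ hp.pos)

theorem card_P1_mul {m n : ℕ} (h : m.Coprime n) :
    Nat.card (P1 (ZMod (m * n))) = Nat.card (P1 (ZMod m)) * Nat.card (P1 (ZMod n)) := by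
  rw [← Nat.card_prod]
  let e := ZMod.chineseRemainder h
  let f₁ : ZMod (m * n) →+* ZMod m := (RingHom.fst _ _).comp e.toRingHom
  let f₂ : ZMod (m * n) →+* ZMod n := (RingHom.snd _ _).comp e.toRingHom
  let F : P1 (ZMod (m * n)) → P1 (ZMod m) × P1 (ZMod n) :=
    Quotient.lift (fun v => (P1.mk (fun i => f₁ (v.1 i)) (v.2.map f₁),
      P1.mk (fun i => f₂ (v.1 i)) (v.2.map f₂))) fun v w hvw => by
        refine Prod.ext ((P1.mk_eq_mk_iff _ _).2 ?_) ((P1.mk_eq_mk_iff _ _).2 ?_) <;>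
          simp only [cross, ← map_mul, ← map_sub] <;>
          rw [show v.1 0 * w.1 1 - v.1 1 * w.1 0 = 0 from hvw, map_zero]
  refine Nat.card_congr (Equiv.ofBijective F ⟨?_, ?_⟩)
  · intro a b
    refine Quotient.inductionOn₂ a b fun v w hvw => Quotient.sound ?_
    show cross v.1 w.1 = 0
    have h1 := (P1.mk_eq_mk_iff _ _).1 (congrArg Prod.fst hvw)
    have h2 := (P1.mk_eq_mk_iff _ _).1 (congrArg Prod.snd hvw)
    simp only [cross, ← map_mul, ← map_sub] at h1 h2
    exact e.injective (by rw [map_zero]; exact Prod.ext h1 h2)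
  · rintro ⟨a, b⟩
    induction a using P1.ind with
    | h v hv =>
      induction b using P1.ind with
      | h w hw =>
        obtain ⟨x, y, hxy⟩ := hv
        obtain ⟨x', y', hxy'⟩ := hw
        have hu : IsCoprime (e.symm (v 0, w 0)) (e.symm (v 1, w 1)) :=
          (show IsCoprime ((v 0, w 0) : ZMod m × ZMod n) (v 1, w 1) from
            ⟨(x, x'), (y, y'), Prod.ext hxy hxy'⟩).map e.symm.toRingHom
        refine ⟨P1.mk (fun i => e.symm (v i, w i)) hu, Prod.ext ?_ ?_⟩ <;>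
          refine (P1.mk_eq_mk_iff _ _).2 ?_ <;> simp [cross, f₁, f₂] <;> ring

theorem card_P1 (N : ℕ) [NeZero N] : Nat.card (P1 (ZMod N)) = dedekindPsi N := by
  suffices ∀ n : ℕ, n ≠ 0 → Nat.card (P1 (ZMod n)) = dedekindPsi n from this N (NeZero.ne N)
  intro n
  induction n using Nat.recOnPosPrimePosCoprime with
  | prime_pow p k hp hk =>
    intro _
    rw [card_P1_prime_pow hp hk.ne', dedekindPsi_prime_pow hp hk.ne']
  | zero => exact fun h => absurd rfl h
  | one =>
    intro _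
    haveI : Subsingleton (P1 (ZMod 1)) := ⟨P1.ind fun v hv => P1.ind fun w hw =>
      (P1.mk_eq_mk_iff hv hw).2 (Subsingleton.elim _ _)⟩
    haveI : Nonempty (P1 (ZMod 1)) := ⟨P1.mk ![1, 0] (isCoprime_one_left (R := ZMod 1))⟩
    rw [ModularCurve.dedekindPsi_one, Nat.card_unique]
  | coprime a b ha hb hab iha ihb =>
    intro _
    rw [card_P1_mul hab, iha (by omega), ihb (by omega), dedekindPsi_mul_of_coprime hab]

theorem card_X0 (N : ℕ) [NeZero N] : Nat.card (X0 N) = dedekindPsi N := by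
  rw [Nat.card_congr (cosetEquiv N), card_P1]

theorem Gamma0_index_eq_dedekindPsi (N : ℕ) [NeZero N] : (Gamma0 N).index = dedekindPsi N := by
  rw [Subgroup.index_eq_card]; exact card_X0 N

theorem dedekindPsi_pos (N : ℕ) [NeZero N] : 0 < dedekindPsi N := by
  rw [← Gamma0_index_eq_dedekindPsi]
  exact Nat.pos_of_ne_zero Subgroup.FiniteIndex.index_ne_zero

theorem neg_smul_X0 (N : ℕ) (g : SL(2, ℤ)) (q : X0 N) : (-g) • q = g • q := by
  induction q using QuotientGroup.induction_on with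
  | _ h =>
    rw [MulAction.Quotient.smul_mk, MulAction.Quotient.smul_mk, mk_eq_mk_iff]
    exact ⟨0, by simp [SpecialLinearGroup.coe_neg]; ring⟩

end Fermat.Agent.MF.Cosets
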