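/-
`T`-orbits on `SL(2, ℤ) ⧸ Γ₀(N)` (= cusps of `Γ₀(N)`), their widths, and their number.
-/
import Fermat.Agent.MF.Cosets.Index

set_option autoImplicit false

open Matrix CongruenceSubgroup ModularGroup
open ModularCurve (dedekindPsi nuTwo nuThree cuspCount)
open scoped MatrixGroups

namespace Fermat.Agent.MF.Cosets

/-- The width of the cusp `g • ∞` for `Γ₀(N)`: `N / gcd(c², N)` for `c` the lower left entry. -/
def width (N : ℕ) (g : SL(2, ℤ)) : ℕ := N / Int.gcd (g 1 0 ^ 2) N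

theorem gcd_mul_width (N : ℕ) (g : SL(2, ℤ)) : Int.gcd (g 1 0 ^ 2) N * width N g = N :=
  Nat.mul_div_cancel' (Int.natCast_dvd_natCast.1 (Int.gcd_dvd_right _ _))

theorem width_pos (N : ℕ) [NeZero N] (g : SL(2, ℤ)) : 0 < width N g :=
  Nat.pos_of_ne_zero fun h => NeZero.ne N (by rw [← gcd_mul_width N g, h, mul_zero])

theorem T_zpow_mul_apply (h : ℤ) (g : SL(2, ℤ)) :
    (T ^ h * g) 0 0 = g 0 0 + h * g 1 0 ∧ (T ^ h * g) 1 0 = g 1 0 := by
  constructor <;> simp [coe_T_zpow, Matrix.mul_apply]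

theorem T_zpow_smul_eq_iff {N : ℕ} {g g' : SL(2, ℤ)} {h : ℤ} :
    T ^ h • (QuotientGroup.mk g : X0 N) = QuotientGroup.mk g' ↔
      (N : ℤ) ∣ (g 0 0 + h * g 1 0) * g' 1 0 - g 1 0 * g' 0 0 := by
  rw [MulAction.Quotient.smul_mk, smul_eq_mul, mk_eq_mk_iff, (T_zpow_mul_apply h g).1,
    (T_zpow_mul_apply h g).2]

theorem T_zpow_smul_eq_self_iff {N : ℕ} [NeZero N] {g : SL(2, ℤ)} {h : ℤ} :
    T ^ h • (QuotientGroup.mk g : X0 N) = QuotientGroup.mk g ↔ (width N g : ℤ) ∣ h := by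
  rw [T_zpow_smul_eq_iff, show (g 0 0 + h * g 1 0) * g 1 0 - g 1 0 * g 0 0 = h * g 1 0 ^ 2 by ring]
  have hw : (Int.gcd (g 1 0 ^ 2) N : ℤ) * width N g = N := by exact_mod_cast gcd_mul_width N g
  have hD : (Int.gcd (g 1 0 ^ 2) N : ℤ) ≠ 0 := by
    intro h0; rw [h0, zero_mul] at hw; exact NeZero.ne N (by exact_mod_cast hw.symm)
  constructor
  · rintro ⟨k, hk⟩
    refine (mul_dvd_mul_iff_left hD).1 ?_
    rw [hw, Int.gcd_eq_gcd_ab (g 1 0 ^ 2) N]
    exact ⟨k * Int.gcdA (g 1 0 ^ 2) N + h * Int.gcdB (g 1 0 ^ 2) N,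
      by linear_combination Int.gcdA (g 1 0 ^ 2) N * hk⟩
  · intro hd
    rw [← hw, mul_comm h]
    exact mul_dvd_mul (Int.gcd_dvd_left _ _) hd

theorem conj_T_zpow_mem_Gamma0_iff {N : ℕ} [NeZero N] {g : SL(2, ℤ)} {h : ℤ} :
    g⁻¹ * T ^ h * g ∈ Gamma0 N ↔ (width N g : ℤ) ∣ h := by
  rw [← T_zpow_smul_eq_self_iff, eq_comm, MulAction.Quotient.smul_mk, smul_eq_mul,
    QuotientGroup.eq, mul_assoc]

theorem minimalPeriod_T_eq_width (N : ℕ) [NeZero N] (g : SL(2, ℤ)) :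
    Function.minimalPeriod (fun q : X0 N => T • q) (QuotientGroup.mk g) = width N g := by
  refine Nat.dvd_antisymm (MulAction.pow_smul_eq_iff_minimalPeriod_dvd.1 ?_) ?_
  · rw [← zpow_natCast, T_zpow_smul_eq_self_iff]
  · rw [← Int.natCast_dvd_natCast, ← T_zpow_smul_eq_self_iff, zpow_natCast,
      MulAction.pow_smul_eq_iff_minimalPeriod_dvd]

/-- Cusps of `Γ₀(N)` as `T`-orbits of cosets (`g ↦` the cusp `g⁻¹ • ∞`). -/
abbrev TOrbits (N : ℕ) : Type :=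
  MulAction.orbitRel.Quotient (Subgroup.zpowers (T : SL(2, ℤ))) (X0 N)

theorem mem_orbit_T_iff_exists {N : ℕ} {g g' : SL(2, ℤ)} :
    (QuotientGroup.mk g' : X0 N) ∈
        MulAction.orbit (Subgroup.zpowers (T : SL(2, ℤ))) (QuotientGroup.mk g : X0 N) ↔
      ∃ h : ℤ, (N : ℤ) ∣ (g 0 0 + h * g 1 0) * g' 1 0 - g 1 0 * g' 0 0 := by
  constructor
  · rintro ⟨⟨x, h, rfl⟩, hh⟩
    exact ⟨h, T_zpow_smul_eq_iff.1 hh⟩
  · rintro ⟨h, hh⟩
    exact ⟨⟨T ^ h, h, rfl⟩, T_zpow_smul_eq_iff.2 hh⟩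

theorem mem_orbit_T_iff {N : ℕ} {g g' : SL(2, ℤ)} :
    (QuotientGroup.mk g' : X0 N) ∈
        MulAction.orbit (Subgroup.zpowers (T : SL(2, ℤ))) (QuotientGroup.mk g : X0 N) ↔
      ∃ h : ℤ, ∃ γ ∈ Gamma0 N, g' = T ^ h * g * γ := by
  constructor
  · rintro ⟨⟨x, h, rfl⟩, hh⟩
    exact ⟨h, (T ^ h * g)⁻¹ * g', QuotientGroup.eq.1 hh, by group⟩
  · rintro ⟨h, γ, hγ, rfl⟩
    refine ⟨⟨T ^ h, h, rfl⟩, ?_⟩
    exact QuotientGroup.eq.2 (by
      show (T ^ h * g)⁻¹ * (T ^ h * g * γ) ∈ Gamma0 N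
      rw [inv_mul_cancel_left]; exact hγ)

/-- The divisor `gcd(c, N)` attached to a cusp. -/
def cuspDiv (N : ℕ) (g : SL(2, ℤ)) : ℕ := Int.gcd (g 1 0) N

theorem cuspDiv_dvd_of_mem_orbit {N : ℕ} {g g' : SL(2, ℤ)}
    (h : (QuotientGroup.mk g' : X0 N) ∈
      MulAction.orbit (Subgroup.zpowers (T : SL(2, ℤ))) (QuotientGroup.mk g : X0 N)) :
    cuspDiv N g ∣ cuspDiv N g' := by
  obtain ⟨k, hk⟩ := mem_orbit_T_iff_exists.1 h
  have hc : (cuspDiv N g : ℤ) ∣ g 1 0 := Int.gcd_dvd_left _ _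
  have hN : (cuspDiv N g : ℤ) ∣ N := Int.gcd_dvd_right _ _
  have hcop : IsCoprime (cuspDiv N g : ℤ) (g 0 0) :=
    IsCoprime.of_isCoprime_of_dvd_left (⟨-g 0 1, g 1 1, by linear_combination det_entries g⟩ :
      IsCoprime (g 1 0) (g 0 0)) hc
  have h2 : (cuspDiv N g : ℤ) ∣ g 0 0 * g' 1 0 := by
    have := dvd_add (hN.trans hk) (hc.mul_right (g' 0 0 - k * g' 1 0))
    rwa [show (g 0 0 + k * g 1 0) * g' 1 0 - g 1 0 * g' 0 0 +
      g 1 0 * (g' 0 0 - k * g' 1 0) = g 0 0 * g' 1 0 by ring] at this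
  exact Int.dvd_gcd (hcop.dvd_of_dvd_mul_left h2) hN

/-- Criterion for two cosets to define the same cusp. -/
theorem mem_orbit_T_iff_gcd {N : ℕ} [NeZero N] {g g' : SL(2, ℤ)} {d : ℕ} {c c' : ℤ}
    (hd : cuspDiv N g = d) (hd' : cuspDiv N g' = d) (hc : g 1 0 = d * c) (hc' : g' 1 0 = d * c') :
    (QuotientGroup.mk g' : X0 N) ∈
        MulAction.orbit (Subgroup.zpowers (T : SL(2, ℤ))) (QuotientGroup.mk g : X0 N) ↔
      (Nat.gcd d (N / d) : ℤ) ∣ g 0 0 * c' - g' 0 0 * c := by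
  rw [mem_orbit_T_iff_exists]
  have hdN : d ∣ N := hd ▸ (by exact_mod_cast Int.gcd_dvd_right (g 1 0) N)
  obtain ⟨M, rfl⟩ := hdN
  obtain ⟨hd0, hM0⟩ : d ≠ 0 ∧ M ≠ 0 := mul_ne_zero_iff.1 (NeZero.ne (d * M))
  rw [Nat.mul_div_cancel_left _ (Nat.pos_of_ne_zero hd0), hc, hc']
  have key : ∀ h : ℤ, (g 0 0 + h * (d * c)) * (d * c') - d * c * g' 0 0 =
      d * ((g 0 0 * c' - g' 0 0 * c) + h * d * (c * c')) := fun h => by ring
  simp only [key, Nat.cast_mul, mul_dvd_mul_iff_left (Int.natCast_ne_zero.2 hd0)]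
  have cop : ∀ {f : SL(2, ℤ)} {e : ℤ}, cuspDiv (d * M) f = d → f 1 0 = d * e →
      IsCoprime e (M : ℤ) := by
    intro f e hf he
    rw [cuspDiv, he, Nat.cast_mul, Int.gcd_mul_left, Int.natAbs_natCast] at hf
    exact Int.isCoprime_iff_gcd_eq_one.2
      (Nat.eq_of_mul_eq_mul_left (Nat.pos_of_ne_zero hd0) (by rw [hf, mul_one]))
  obtain ⟨p, q, hpq⟩ := (cop hd hc).mul_left (cop hd' hc')
  constructor
  · rintro ⟨h, hh⟩
    have h1 : (Nat.gcd d M : ℤ) ∣ M := by exact_mod_cast Nat.gcd_dvd_right d M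
    have h2 : (Nat.gcd d M : ℤ) ∣ d := by exact_mod_cast Nat.gcd_dvd_left d M
    have := dvd_sub (h1.trans hh) ((h2.mul_left h).mul_right (c * c'))
    rwa [add_sub_cancel_right] at this
  · rintro ⟨k, hk⟩
    rw [Nat.gcd_eq_gcd_ab] at hk
    exact ⟨-(k * Nat.gcdA d M * p), k * Nat.gcdB d M + k * Nat.gcdA d M * d * q, by
      linear_combination hk - k * Nat.gcdA d M * d * hpq⟩

theorem card_TOrbits (N : ℕ) [NeZero N] : Nat.card (TOrbits N) = cuspCount N := by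
  classical
  have hrep : ∀ x : (d : N.divisors) × (ZMod (Nat.gcd d.1 (N / d.1)))ˣ, ∃ g : SL(2, ℤ),
      g 1 0 = (x.1.1 : ℤ) ∧ ((g 0 0 : ℤ) : ZMod (Nat.gcd x.1.1 (N / x.1.1))) = x.2 := by
    rintro ⟨⟨d, hdmem⟩, b⟩
    haveI : NeZero d := ⟨(Nat.pos_of_mem_divisors hdmem).ne'⟩
    obtain ⟨w, hw⟩ := ZMod.unitsMap_surjective (Nat.gcd_dvd_left d (N / d)) b
    obtain ⟨g, hg0, hg1⟩ :=
      (Nat.isCoprime_iff_coprime.2 (ZMod.val_coe_unit_coprime w)).exists_SL2_col 0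
    refine ⟨g, hg1, ?_⟩
    rw [hg0, Int.cast_natCast, ZMod.natCast_val, ← hw, ZMod.unitsMap_val]
  choose rep hrep1 hrep0 using hrep
  have hdiv : ∀ x, cuspDiv N (rep x) = x.1.1 := by
    intro x
    rw [cuspDiv, hrep1, Int.gcd_natCast_natCast,
      Nat.gcd_eq_left (Nat.dvd_of_mem_divisors x.1.2)]
  let F : (d : N.divisors) × (ZMod (Nat.gcd d.1 (N / d.1)))ˣ → TOrbits N :=
    fun x => Quotient.mk'' (QuotientGroup.mk (rep x))
  have hF : Function.Bijective F := by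
    refine ⟨fun x y hxy => ?_, fun o => ?_⟩
    · have hm : (QuotientGroup.mk (rep x) : X0 N) ∈ MulAction.orbit
          (Subgroup.zpowers (T : SL(2, ℤ))) (QuotientGroup.mk (rep y) : X0 N) :=
        Quotient.eq''.1 hxy
      obtain ⟨⟨d, hdm⟩, b⟩ := x
      obtain ⟨⟨d', hdm'⟩, b'⟩ := y
      obtain rfl : d = d' := by
        rw [← show cuspDiv N (rep ⟨⟨d, hdm⟩, b⟩) = d from hdiv _,
          ← show cuspDiv N (rep ⟨⟨d', hdm'⟩, b'⟩) = d' from hdiv _]
        exact Nat.dvd_antisymm (cuspDiv_dvd_of_mem_orbit (MulAction.mem_orbit_symm.1 hm))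
          (cuspDiv_dvd_of_mem_orbit hm)
      rw [mem_orbit_T_iff_gcd (g := rep ⟨⟨d, hdm'⟩, b'⟩) (g' := rep ⟨⟨d, hdm⟩, b⟩)
        (hdiv _) (hdiv _) (c := 1) (c' := 1) (by rw [hrep1, mul_one]) (by rw [hrep1, mul_one]), mul_one, mul_one, ← ZMod.intCast_eq_intCast_iff_dvd_sub,
        hrep0, hrep0] at hm
      exact Sigma.ext rfl (heq_of_eq (Units.ext hm))
    · induction o using Quotient.inductionOn' with
      | _ q =>
        induction q using QuotientGroup.induction_on with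
        | _ g =>
          set d := cuspDiv N g with hd
          have hdN : d ∣ N := by exact_mod_cast Int.gcd_dvd_right (g 1 0) N
          obtain ⟨c, hc⟩ : (d : ℤ) ∣ g 1 0 := Int.gcd_dvd_left _ _
          obtain ⟨M, hM⟩ := hdN
          have hd0 : 0 < d := Nat.pos_of_ne_zero fun h => NeZero.ne N (by rw [hM, h, zero_mul])
          have hg : (Nat.gcd d (N / d) : ℤ) ∣ M ∧ (Nat.gcd d (N / d) : ℤ) ∣ d := by
            rw [hM, Nat.mul_div_cancel_left _ hd0]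
            exact ⟨by exact_mod_cast Nat.gcd_dvd_right d M, by exact_mod_cast Nat.gcd_dvd_left d M⟩
          have hcM : IsCoprime c (M : ℤ) := by
            have h' : Int.gcd (g 1 0) N = d := hd.symm
            rw [hc, hM, Nat.cast_mul, Int.gcd_mul_left, Int.natAbs_natCast] at h'
            exact Int.isCoprime_iff_gcd_eq_one.2
              (Nat.eq_of_mul_eq_mul_left hd0 (by rw [h', mul_one]))
          obtain ⟨p, r, hpr⟩ := hcM.of_isCoprime_of_dvd_right hg.1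
          have hu : IsUnit ((g 0 0 * p : ℤ) : ZMod (Nat.gcd d (N / d))) := by
            rw [ZMod.coe_int_isUnit_iff_isCoprime]
            refine IsCoprime.mul_right ?_ ⟨r, c, by linear_combination hpr⟩
            exact IsCoprime.of_isCoprime_of_dvd_left
              (⟨-g 0 1, g 1 1, by linear_combination det_entries g⟩ :
                IsCoprime (g 1 0) (g 0 0)) (hg.2.trans ⟨c, hc⟩)
          let x : (d : N.divisors) × (ZMod (Nat.gcd d.1 (N / d.1)))ˣ :=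
            ⟨⟨d, Nat.mem_divisors.2 ⟨⟨M, hM⟩, NeZero.ne N⟩⟩, hu.unit⟩
          refine ⟨x, Quotient.sound' ?_⟩
          rw [MulAction.orbitRel_apply, mem_orbit_T_iff_gcd hd.symm (hdiv x) hc
            (c' := 1) (by rw [hrep1, mul_one]), mul_one, ← ZMod.intCast_eq_intCast_iff_dvd_sub,
            Int.cast_mul]
          have hpc : ((c : ℤ) : ZMod (Nat.gcd d (N / d))) * (p : ℤ) = 1 := by
            rw [← Int.cast_mul, ← Int.cast_one, ZMod.intCast_eq_intCast_iff_dvd_sub]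
            exact ⟨r, by linear_combination -hpr⟩
          have hx : ((rep x 0 0 : ℤ) : ZMod (Nat.gcd d (N / d))) =
              (g 0 0 : ℤ) * (p : ℤ) := by
            have := hrep0 x
            rw [IsUnit.unit_spec, Int.cast_mul] at this
            exact this
          rw [hx]
          linear_combination ((g 0 0 : ℤ) : ZMod (Nat.gcd d (N / d))) * hpc
  rw [← Nat.card_congr (Equiv.ofBijective F hF), Nat.card_sigma, cuspCount,
    ← Finset.sum_coe_sort N.divisors]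
  refine Finset.sum_congr rfl fun d _ => ?_
  haveI : NeZero (Nat.gcd d.1 (N / d.1)) :=
    ⟨(Nat.gcd_pos_of_pos_left _ (Nat.pos_of_mem_divisors d.2)).ne'⟩
  rw [Nat.card_eq_fintype_card, ZMod.card_units_eq_totient]

theorem card_orbit_T_eq_width (N : ℕ) [NeZero N] (g : SL(2, ℤ)) :
    Nat.card (MulAction.orbit (Subgroup.zpowers (T : SL(2, ℤ))) (QuotientGroup.mk g : X0 N)) =
      width N g := by
  classical
  haveI : Finite (X0 N) := inferInstanceAs (Finite (SL(2, ℤ) ⧸ Gamma0 N))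
  haveI := Fintype.ofFinite (X0 N)
  rw [← minimalPeriod_T_eq_width]
  exact Nat.card_eq_fintype_card.trans (MulAction.minimalPeriod_eq_card _ _).symm

theorem width_eq_of_mem_orbit {N : ℕ} [NeZero N] {g g' : SL(2, ℤ)}
    (h : (QuotientGroup.mk g' : X0 N) ∈
      MulAction.orbit (Subgroup.zpowers (T : SL(2, ℤ))) (QuotientGroup.mk g : X0 N)) :
    width N g' = width N g := by
  rw [← card_orbit_T_eq_width, ← card_orbit_T_eq_width, MulAction.orbit_eq_iff.2 h]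

/-- The widths of the cusps add up to the index. -/
theorem finsum_width_eq_dedekindPsi (N : ℕ) [NeZero N] [Fintype (TOrbits N)] :
    ∑ o : TOrbits N, Nat.card o.orbit = dedekindPsi N := by
  haveI : Finite (X0 N) := inferInstanceAs (Finite (SL(2, ℤ) ⧸ Gamma0 N))
  rw [← card_X0 N, Nat.card_congr (MulAction.selfEquivSigmaOrbits' (Subgroup.zpowers (T : SL(2, ℤ))) (X0 N)), Nat.card_sigma]

end Fermat.Agent.MF.Cosets
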