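/-
Fixed points of `S` and `S * T` on `SL(2, ℤ) ⧸ Γ₀(N)`: `ν₂(N)` and `ν₃(N)`; orbit counts.
-/
import Fermat.Agent.MF.Cosets.Index

set_option autoImplicit false

open Matrix CongruenceSubgroup ModularGroup
open ModularCurve (dedekindPsi nuTwo nuThree cuspCount)
open scoped MatrixGroups

namespace Fermat.Agent.MF.Cosets

variable {R : Type*} [CommRing R]

/-- Fixed points of a companion matrix `!![0, -q; 1, t]` on `P1 R` are the roots of `x² + t x + q`:
the fixed point attached to `x` is `(x : 1)`. -/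
theorem card_fixed_companion (M : GL (Fin 2) R) (t q : R)
    (hM : (M : Matrix (Fin 2) (Fin 2) R) = !![0, -q; 1, t]) :
    Nat.card {x : P1 R // M • x = x} = Nat.card {x : R // x ^ 2 + t * x + q = 0} := by
  have hfix : ∀ (v : Fin 2 → R) (hv : IsCoprime (v 0) (v 1)),
      M • P1.mk v hv = P1.mk v hv ↔ v 0 * v 0 + t * v 0 * v 1 + q * (v 1 * v 1) = 0 := by
    intro v hv
    rw [P1.smul_mk, P1.mk_eq_mk_iff, cross, hM]
    simp only [Matrix.mulVec, dotProduct, Fin.sum_univ_two, Matrix.of_apply, Matrix.cons_val',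
      Matrix.cons_val_zero, Matrix.cons_val_one, Matrix.empty_val', Matrix.cons_val_fin_one]
    constructor <;> intro h <;> linear_combination -h
  let F : {x : R // x ^ 2 + t * x + q = 0} → {x : P1 R // M • x = x} := fun x =>
    ⟨P1.mk ![x.1, 1] (isCoprime_one_right (R := R)), (hfix _ _).2 (by
      simp only [Matrix.cons_val_zero, Matrix.cons_val_one]
      linear_combination x.2)⟩
  refine (Nat.card_congr (Equiv.ofBijective F ⟨?_, ?_⟩)).symm
  · intro x y hxy
    have := (P1.mk_eq_mk_iff _ _).1 (congrArg Subtype.val hxy)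
    simp only [cross, Matrix.cons_val_zero, Matrix.cons_val_one] at this
    exact Subtype.ext (by linear_combination this)
  · rintro ⟨x, hx⟩
    induction x using P1.ind with
    | h v hv =>
      rw [hfix] at hx
      obtain ⟨x, y, hxy⟩ := hv.pow_left (m := 2)
      have hu : (y - x * (t * v 0 + q * v 1)) * v 1 = 1 := by linear_combination hxy - x * hx
      set w := y - x * (t * v 0 + q * v 1) with hw
      refine ⟨⟨v 0 * w, by linear_combination (w * w) * hx -
        (t * v 0 * w + q * (w * v 1 + 1)) * hu⟩, Subtype.ext ((P1.mk_eq_mk_iff _ _).2 ?_)⟩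
      simp only [cross, Matrix.cons_val_zero, Matrix.cons_val_one]
      linear_combination v 0 * hu

theorem card_fixed_S (N : ℕ) [NeZero N] :
    Nat.card {q : X0 N // S • q = q} = nuTwo N := by
  have hM : (redN N S : Matrix (Fin 2) (Fin 2) (ZMod N)) = !![0, -1; 1, 0] := by
    ext i j; fin_cases i <;> fin_cases j <;> simp [redN, coe_S]
  calc Nat.card {q : X0 N // S • q = q}
      = Nat.card {x : P1 (ZMod N) // redN N S • x = x} := by
        refine Nat.card_congr ((cosetEquiv N).subtypeEquiv fun q => ?_)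
        rw [← P1.sl_smul_def, ← cosetEquiv_smul, (cosetEquiv N).apply_eq_iff_eq]
    _ = nuTwo N := by
        rw [card_fixed_companion _ 0 1 hM, nuTwo]
        simp only [zero_mul, add_zero]

theorem card_fixed_ST (N : ℕ) [NeZero N] :
    Nat.card {q : X0 N // (S * T) • q = q} = nuThree N := by
  have hM : (redN N (S * T) : Matrix (Fin 2) (Fin 2) (ZMod N)) = !![0, -1; 1, 1] := by
    ext i j; fin_cases i <;> fin_cases j <;> simp [redN, coe_S, coe_T, Matrix.mul_apply]
  calc Nat.card {q : X0 N // (S * T) • q = q}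
      = Nat.card {x : P1 (ZMod N) // redN N (S * T) • x = x} := by
        refine Nat.card_congr ((cosetEquiv N).subtypeEquiv fun q => ?_)
        rw [← P1.sl_smul_def, ← cosetEquiv_smul, (cosetEquiv N).apply_eq_iff_eq]
    _ = nuThree N := by
        rw [card_fixed_companion _ 1 1 hM, nuThree]
        simp only [one_mul]

theorem S_smul_S_smul (N : ℕ) (q : X0 N) : S • S • q = q := by
  rw [smul_smul, show (S * S : SL(2, ℤ)) = -1 by
    ext i j; fin_cases i <;> fin_cases j <;> simp [coe_S, Matrix.mul_apply], neg_smul_X0, one_smul]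

theorem ST_smul_cube (N : ℕ) (q : X0 N) : (S * T) • (S * T) • (S * T) • q = q := by
  rw [smul_smul, smul_smul, show (S * T * (S * T) * (S * T) : SL(2, ℤ)) = -1 by
    ext i j; fin_cases i <;> fin_cases j <;> simp [coe_S, coe_T, Matrix.mul_apply], neg_smul_X0,
    one_smul]

theorem S_smul_eq_self_iff {N : ℕ} {g : SL(2, ℤ)} :
    S • (QuotientGroup.mk g : X0 N) = QuotientGroup.mk g ↔
      (N : ℤ) ∣ g 0 0 ^ 2 + g 1 0 ^ 2 := by
  rw [MulAction.Quotient.smul_mk, smul_eq_mul, mk_eq_mk_iff]
  have : (S * g) 0 0 * g 1 0 - (S * g) 1 0 * g 0 0 = -(g 0 0 ^ 2 + g 1 0 ^ 2) := by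
    simp [coe_S, Matrix.mul_apply]; ring
  rw [this, dvd_neg]

theorem ST_smul_eq_self_iff {N : ℕ} {g : SL(2, ℤ)} :
    (S * T) • (QuotientGroup.mk g : X0 N) = QuotientGroup.mk g ↔
      (N : ℤ) ∣ g 0 0 ^ 2 + g 0 0 * g 1 0 + g 1 0 ^ 2 := by
  rw [MulAction.Quotient.smul_mk, smul_eq_mul, mk_eq_mk_iff]
  have : (S * T * g) 0 0 * g 1 0 - (S * T * g) 1 0 * g 0 0 =
      -(g 0 0 ^ 2 + g 0 0 * g 1 0 + g 1 0 ^ 2) := by
    simp [coe_S, coe_T, Matrix.mul_apply]; ring
  rw [this, dvd_neg]

/-- For a permutation of prime order `p` of a finite set: `p * #orbits = #X + (p - 1) * #fixed`. -/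
theorem prime_mul_card_orbits_zpowers {G X : Type*} [Group G] [MulAction G X] [Finite X] (g : G)
    {p : ℕ} (hp : p.Prime) (hg : ∀ x : X, g ^ p • x = x) :
    p * Nat.card (MulAction.orbitRel.Quotient (Subgroup.zpowers g) X) =
      Nat.card X + (p - 1) * Nat.card {x : X // g • x = x} := by
  classical
  haveI := Fintype.ofFinite X
  set Ω := MulAction.orbitRel.Quotient (Subgroup.zpowers g) X
  haveI : Fintype Ω := Fintype.ofFinite Ω
  let e := MulAction.selfEquivSigmaOrbits (Subgroup.zpowers g) X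
  have hsum : Nat.card X =
      ∑ o : Ω, Nat.card (MulAction.orbit (Subgroup.zpowers g) o.out) := by
    rw [Nat.card_congr e, Nat.card_sigma]
  have hcard : ∀ x : X, Nat.card (MulAction.orbit (Subgroup.zpowers g) x) =
      if g • x = x then 1 else p := by
    intro x
    rw [Nat.card_eq_fintype_card, ← MulAction.minimalPeriod_eq_card]
    split_ifs with hx
    · exact Function.minimalPeriod_eq_one_iff_isFixedPt.2 hx
    · have hd : Function.minimalPeriod (fun y : X => g • y) x ∣ p :=
        MulAction.pow_smul_eq_iff_minimalPeriod_dvd.1 (hg x)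
      rcases hp.eq_one_or_self_of_dvd _ hd with h | h
      · exact absurd (Function.minimalPeriod_eq_one_iff_isFixedPt.1 h) hx
      · exact h
  have hfix : Nat.card {o : Ω // g • o.out = o.out} = Nat.card {x : X // g • x = x} := by
    refine Nat.card_congr (Equiv.ofBijective (fun o => ⟨o.1.out, o.2⟩) ⟨?_, ?_⟩)
    · intro a b h
      exact Subtype.ext (Quotient.out_injective (congrArg Subtype.val h))
    · rintro ⟨x, hx⟩
      have horb : (Quotient.mk'' x : Ω).out = x := by
        have h1 : (Quotient.mk'' x : Ω).out ∈ MulAction.orbit (Subgroup.zpowers g) x :=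
          Quotient.mk_out (s := MulAction.orbitRel (Subgroup.zpowers g) X) x
        obtain ⟨⟨_, k, rfl⟩, hk⟩ := h1
        rw [← hk]
        exact MulAction.mem_fixedBy_zpow (g := g) (a := x) hx k
      exact ⟨⟨Quotient.mk'' x, by rw [horb]; exact hx⟩, Subtype.ext horb⟩
  rw [hsum, ← hfix, Nat.card_eq_fintype_card, Nat.card_eq_fintype_card, Fintype.card_subtype,
    Finset.card_filter, Finset.mul_sum, ← Finset.sum_add_distrib, ← Finset.card_univ,
    Finset.card_eq_sum_ones, Finset.mul_sum]
  refine Finset.sum_congr rfl fun o _ => ?_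
  rw [hcard]
  have := hp.one_lt
  split_ifs <;> omega

theorem two_mul_card_orbits_S (N : ℕ) [NeZero N] :
    2 * Nat.card (MulAction.orbitRel.Quotient (Subgroup.zpowers (S : SL(2, ℤ))) (X0 N)) =
      dedekindPsi N + nuTwo N := by
  haveI : Finite (X0 N) := inferInstanceAs (Finite (SL(2, ℤ) ⧸ Gamma0 N))
  have h := prime_mul_card_orbits_zpowers (X := X0 N) (S : SL(2, ℤ)) Nat.prime_two
    (fun q => by rw [pow_two, mul_smul, S_smul_S_smul])
  rw [card_X0, card_fixed_S] at h
  exact h.trans (by simp)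

theorem three_mul_card_orbits_ST (N : ℕ) [NeZero N] :
    3 * Nat.card (MulAction.orbitRel.Quotient (Subgroup.zpowers (S * T : SL(2, ℤ))) (X0 N)) =
      dedekindPsi N + 2 * nuThree N := by
  haveI : Finite (X0 N) := inferInstanceAs (Finite (SL(2, ℤ) ⧸ Gamma0 N))
  have h := prime_mul_card_orbits_zpowers (X := X0 N) (S * T : SL(2, ℤ)) Nat.prime_three
    (fun q => by simpa only [smul_smul, pow_three, mul_assoc] using ST_smul_cube N q)
  rw [card_X0, card_fixed_ST] at h
  exact h

end Fermat.Agent.MF.Cosets
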