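/-
Elements of finite order and parabolic elements of `SL(2, ℤ)` up to conjugacy.
-/
import Fermat.Agent.MF.ParHom.Presentation
import Mathlib

set_option autoImplicit false

open Matrix CongruenceSubgroup ModularGroup UpperHalfPlane
open scoped MatrixGroups Modular

namespace Fermat.Agent.MF.Cosets

theorem S_mul_self : (S * S : SL(2, ℤ)) = -1 := by decide

theorem ST_cube : ((S * T) ^ 3 : SL(2, ℤ)) = -1 := by decide

theorem trace_conj (h g : SL(2, ℤ)) :
    ((h * g * h⁻¹ : SL(2, ℤ)) : Matrix (Fin 2) (Fin 2) ℤ).trace =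
      (g : Matrix (Fin 2) (Fin 2) ℤ).trace := by
  have hd : h 0 0 * h 1 1 - h 0 1 * h 1 0 = 1 := (Matrix.det_fin_two h.1).symm.trans h.det_coe
  simp [Matrix.trace_fin_two, Matrix.mul_apply, Fin.sum_univ_two, Matrix.adjugate_fin_two]
  linear_combination (g 0 0 + g 1 1) * hd

theorem trace_T_zpow (n : ℤ) : ((T ^ n : SL(2, ℤ)) : Matrix (Fin 2) (Fin 2) ℤ).trace = 2 := by
  simp [coe_T_zpow, Matrix.trace_fin_two]

/-- `|tr g| = 2` iff `g` is conjugate to `± T ^ n`. -/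
theorem trace_sq_eq_four_iff {g : SL(2, ℤ)} :
    (g : Matrix (Fin 2) (Fin 2) ℤ).trace ^ 2 = 4 ↔
      ∃ (h : SL(2, ℤ)) (n : ℤ), g = h * T ^ n * h⁻¹ ∨ g = -(h * T ^ n * h⁻¹) := by
  refine ⟨ParHom.exists_conj_T_zpow, ?_⟩
  rintro ⟨h, n, rfl | rfl⟩
  · rw [trace_conj, trace_T_zpow]; norm_num
  · rw [SpecialLinearGroup.coe_neg, Matrix.trace_neg, trace_conj, trace_T_zpow]; norm_num

theorem trace_sq_lt_four_of_isOfFinOrder {g : SL(2, ℤ)} (hg : IsOfFinOrder g) :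
    g = 1 ∨ g = -1 ∨ (g : Matrix (Fin 2) (Fin 2) ℤ).trace ^ 2 < 4 := by
  obtain ⟨m, hm, hgm⟩ := isOfFinOrder_iff_pow_eq_one.1 hg
  set G := (g : Matrix (Fin 2) (Fin 2) ℤ) with hG
  rcases lt_trichotomy (G.trace ^ 2) 4 with h | h | h
  · exact Or.inr (Or.inr h)
  · obtain ⟨A, n, hA⟩ := trace_sq_eq_four_iff.1 h
    have hn : n = 0 := by
      have h2 : (g ^ 2) ^ m = 1 := by rw [← pow_mul, mul_comm, pow_mul, hgm, one_pow]
      have hg2 : g ^ 2 = A * T ^ (n * 2) * A⁻¹ := by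
        rw [_root_.zpow_mul, ← conj_zpow]
        rcases hA with hA | hA <;> simp [hA, zpow_two, pow_two]
      rw [hg2, conj_pow, conj_eq_one_iff, ← zpow_natCast, ← _root_.zpow_mul] at h2
      have h01 := congrArg (fun M : SL(2, ℤ) => M 0 1) h2
      simp [coe_T_zpow] at h01
      rcases h01 with h01 | h01
      · exact h01
      · omega
    subst hn
    rcases hA with hA | hA
    · exact Or.inl (by simp [hA])
    · exact Or.inr (Or.inl (by simp [hA]))
  · exfalso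
    have ht : 3 ≤ |G.trace| := by
      by_contra h'
      have h1 := abs_le.1 (show |G.trace| ≤ 2 by omega)
      nlinarith
    have hsq : G ^ 2 = G.trace • G - 1 := by
      have hd : G 0 0 * G 1 1 - G 0 1 * G 1 0 = 1 :=
        (Matrix.det_fin_two G).symm.trans g.det_coe
      ext i j
      fin_cases i <;> fin_cases j <;>
        simp only [pow_two, Matrix.mul_apply, Fin.sum_univ_two, Matrix.trace_fin_two,
          Matrix.sub_apply, Matrix.smul_apply, smul_eq_mul, Matrix.one_apply_eq, Fin.zero_eta,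
          Fin.mk_one, Fin.isValue, Matrix.one_apply_ne (show (0 : Fin 2) ≠ 1 by decide),
          Matrix.one_apply_ne (show (1 : Fin 2) ≠ 0 by decide)] <;> linarith
    have key : ∀ k : ℕ, 2 ≤ |(G ^ k).trace| ∧ |(G ^ k).trace| < |(G ^ (k + 1)).trace| := by
      intro k
      induction k with
      | zero => simp only [zero_add, pow_one, pow_zero, Matrix.trace_one, Fintype.card_fin, Nat.cast_ofNat]; norm_num; omega
      | succ k ih =>
        refine ⟨by omega, ?_⟩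
        have hrec : (G ^ (k + 1 + 1)).trace = G.trace * (G ^ (k + 1)).trace - (G ^ k).trace := by
          rw [show k + 1 + 1 = k + 2 from rfl, pow_add, hsq, mul_sub, mul_one, Matrix.trace_sub,
            Matrix.mul_smul, Matrix.trace_smul, ← pow_succ, smul_eq_mul]
        rw [hrec]
        have h1 := abs_sub_abs_le_abs_sub (G.trace * (G ^ (k + 1)).trace) ((G ^ k).trace)
        rw [abs_mul] at h1
        nlinarith
    obtain ⟨k, rfl⟩ := Nat.exists_eq_succ_of_ne_zero hm.ne'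
    have h1 := key k
    have h2 : (G ^ (k + 1)).trace = 2 := by
      have : ((g ^ (k + 1) : SL(2, ℤ)) : Matrix (Fin 2) (Fin 2) ℤ) = G ^ (k + 1) := by simp [hG]
      rw [← this, hgm]; simp
    rw [h2] at h1
    simp at h1
    omega

/-- An elliptic element fixes a point of `ℍ`. -/
theorem exists_smul_eq_self_of_trace_sq_lt_four {γ : SL(2, ℤ)}
    (h : (γ : Matrix (Fin 2) (Fin 2) ℤ).trace ^ 2 < 4) : ∃ τ : ℍ, γ • τ = τ := by
  have hdet : γ 0 0 * γ 1 1 - γ 0 1 * γ 1 0 = 1 :=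
    ((Matrix.det_fin_two (γ : Matrix (Fin 2) (Fin 2) ℤ)).symm.trans γ.det_coe)
  rw [Matrix.trace_fin_two] at h
  have hc : γ 1 0 ≠ 0 := by
    intro h0
    rw [h0] at hdet
    nlinarith [sq_nonneg (γ 0 0 - γ 1 1)]
  have hcR : (γ 1 0 : ℝ) ≠ 0 := by exact_mod_cast hc
  set D : ℝ := 4 - ((γ 0 0 : ℝ) + γ 1 1) ^ 2 with hD
  have hDpos : 0 < D := by
    have : (((γ 0 0 + γ 1 1) ^ 2 : ℤ) : ℝ) < 4 := by exact_mod_cast h
    push_cast at this
    linarith
  set y : ℝ := Real.sqrt D / (2 * |(γ 1 0 : ℝ)|) with hy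
  set x : ℝ := ((γ 0 0 : ℝ) - γ 1 1) / (2 * (γ 1 0 : ℝ)) with hx
  refine ⟨⟨⟨x, y⟩, by positivity⟩, UpperHalfPlane.ext ?_⟩
  have hj := denom_ne_zero (γ : GL (Fin 2) ℝ) (⟨⟨x, y⟩, by positivity⟩ : ℍ)
  rw [ModularGroup.denom_apply] at hj
  rw [UpperHalfPlane.coe_specialLinearGroup_apply, div_eq_iff (by simpa using hj)]
  have hy2 : (y * (γ 1 0 : ℝ)) ^ 2 = D / 4 := by
    rw [mul_pow, hy, div_pow, mul_pow, sq_abs, Real.sq_sqrt hDpos.le]
    field_simp
    ring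
  have hx2 : 2 * (γ 1 0 : ℝ) * x = (γ 0 0 : ℝ) - γ 1 1 := by
    rw [hx]
    field_simp
  have hdetR : (γ 0 0 : ℝ) * γ 1 1 - γ 0 1 * γ 1 0 = 1 := by exact_mod_cast hdet
  apply Complex.ext
  · simp
    refine mul_left_cancel₀ hcR ?_
    linear_combination -((1 : ℝ) / 4) * (2 * (γ 1 0 : ℝ) * x - (γ 0 0 : ℝ) + γ 1 1) * hx2
      + hy2 - hdetR
  · simp
    linear_combination -y * hx2

/-- An element with a fixed point in `ℍ` is conjugate to a power of `S` or of `S * T`. -/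
theorem exists_conj_of_smul_eq_self {g : SL(2, ℤ)} {τ : ℍ} (hτ : g • τ = τ) :
    ∃ (h : SL(2, ℤ)) (n : ℕ), g = h * S ^ n * h⁻¹ ∨ g = h * (S * T) ^ n * h⁻¹ := by
  obtain ⟨A, hA⟩ := ModularGroup.exists_smul_mem_fd τ
  set k := A * g * A⁻¹ with hk
  have hg : g = A⁻¹ * k * A := by rw [hk]; group
  have hfix : k • (A • τ) = A • τ := by rw [hk, mul_smul, mul_smul, inv_smul_smul, hτ]
  have hρ : ∀ u : SL(2, ℤ), u • ρ = ρ → ∃ n : ℕ, u = (S * T) ^ n := by
    intro u hu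
    have := ModularGroup.stabilizer_ρ.1 hu
    simp only [Finset.mem_insert, Finset.mem_singleton] at this
    rcases this with rfl | rfl | rfl | rfl | rfl | rfl
    · exact ⟨0, by decide⟩
    · exact ⟨3, by decide⟩
    · exact ⟨1, by decide⟩
    · exact ⟨4, by decide⟩
    · exact ⟨2, by decide⟩
    · exact ⟨5, by decide⟩
  by_cases hI : A • τ = UpperHalfPlane.I
  · rw [hI] at hfix
    have := ModularGroup.stabilizer_I.1 hfix
    simp only [Finset.mem_insert, Finset.mem_singleton] at this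
    obtain ⟨n, hn⟩ : ∃ n : ℕ, k = S ^ n := by
      rcases this with h | h | h | h <;> rw [h]
      · exact ⟨0, by decide⟩
      · exact ⟨2, by decide⟩
      · exact ⟨1, by decide⟩
      · exact ⟨3, by decide⟩
    exact ⟨A⁻¹, n, Or.inl (by rw [hg, hn, inv_inv])⟩
  by_cases hr : A • τ = ρ
  · obtain ⟨n, hn⟩ := hρ k (hr ▸ hfix)
    exact ⟨A⁻¹, n, Or.inr (by rw [hg, hn, inv_inv])⟩
  by_cases hr' : A • τ = (1 : ℝ) +ᵥ ρ
  · rw [hr', ← modular_T_smul] at hfix
    obtain ⟨n, hn⟩ := hρ (T⁻¹ * k * T) (by rw [mul_smul, mul_smul, hfix, inv_smul_smul])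
    refine ⟨A⁻¹ * T, n, Or.inr ?_⟩
    rw [← hn, hg]; group
  refine ⟨A⁻¹, ?_⟩
  rcases ModularGroup.stabilizer_of_ne hA hfix hI hr hr' with h | h
  · exact ⟨0, Or.inl (by simp [hg, h])⟩
  · exact ⟨2, Or.inl (by rw [hg, h, pow_two, S_mul_self, inv_inv])⟩

theorem exists_conj_of_trace_sq_lt_four {g : SL(2, ℤ)}
    (hg : (g : Matrix (Fin 2) (Fin 2) ℤ).trace ^ 2 < 4) :
    ∃ (h : SL(2, ℤ)) (n : ℕ), g = h * S ^ n * h⁻¹ ∨ g = h * (S * T) ^ n * h⁻¹ :=
  let ⟨_, hτ⟩ := exists_smul_eq_self_of_trace_sq_lt_four hg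
  exists_conj_of_smul_eq_self hτ

/-- An element of trace `0` is conjugate to `± S`. -/
theorem exists_conj_S_of_trace_eq_zero {g : SL(2, ℤ)}
    (hg : (g : Matrix (Fin 2) (Fin 2) ℤ).trace = 0) :
    ∃ h : SL(2, ℤ), g = h * S * h⁻¹ ∨ g = -(h * S * h⁻¹) := by
  obtain ⟨h, n, rfl | rfl⟩ := exists_conj_of_trace_sq_lt_four (g := g) (by rw [hg]; norm_num) <;>
    rw [trace_conj] at hg
  · rw [pow_eq_pow_mod n (show (S : SL(2, ℤ)) ^ 4 = 1 by decide)] at hg ⊢
    have h4 : n % 4 < 4 := Nat.mod_lt _ (by norm_num)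
    generalize n % 4 = r at hg h4 ⊢
    interval_cases r
    · exact absurd hg (by decide)
    · exact ⟨h, Or.inl (by rw [pow_one])⟩
    · exact absurd hg (by decide)
    · exact ⟨h, Or.inr (by rw [show (S : SL(2, ℤ)) ^ 3 = -S by decide]; simp)⟩
  · rw [pow_eq_pow_mod n (show (S * T : SL(2, ℤ)) ^ 6 = 1 by decide)] at hg
    have h6 : n % 6 < 6 := Nat.mod_lt _ (by norm_num)
    generalize n % 6 = r at hg h6
    interval_cases r <;> exact absurd hg (by decide)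

/-- An element of trace `± 1` is conjugate to a power of `S * T`. -/
theorem exists_conj_ST_of_trace_sq_eq_one {g : SL(2, ℤ)}
    (hg : (g : Matrix (Fin 2) (Fin 2) ℤ).trace ^ 2 = 1) :
    ∃ (h : SL(2, ℤ)) (n : ℕ), g = h * (S * T) ^ n * h⁻¹ := by
  obtain ⟨h, n, rfl | rfl⟩ := exists_conj_of_trace_sq_lt_four (g := g) (by rw [hg]; norm_num)
  · exfalso
    rw [trace_conj, pow_eq_pow_mod n (show (S : SL(2, ℤ)) ^ 4 = 1 by decide)] at hg
    have h4 : n % 4 < 4 := Nat.mod_lt _ (by norm_num)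
    generalize n % 4 = r at hg h4
    interval_cases r <;> exact absurd hg (by decide)
  · exact ⟨h, n, rfl⟩

theorem isOfFinOrder_iff {g : SL(2, ℤ)} :
    IsOfFinOrder g ↔ ∃ (h : SL(2, ℤ)) (n : ℕ),
      g = h * S ^ n * h⁻¹ ∨ g = h * (S * T) ^ n * h⁻¹ := by
  constructor
  · intro hg
    rcases trace_sq_lt_four_of_isOfFinOrder hg with rfl | rfl | h
    · exact ⟨1, 0, Or.inl (by simp)⟩
    · exact ⟨1, 2, Or.inl (by rw [pow_two, S_mul_self]; simp)⟩
    · exact exists_conj_of_trace_sq_lt_four h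
  · rintro ⟨h, n, rfl | rfl⟩ <;> refine isOfFinOrder_iff_pow_eq_one.2 ⟨12, by norm_num, ?_⟩ <;>
      rw [conj_pow, ← pow_mul, mul_comm n, pow_mul]
    · rw [show (S : SL(2, ℤ)) ^ 12 = 1 by decide]; simp
    · rw [show (S * T : SL(2, ℤ)) ^ 12 = 1 by decide]; simp

end Fermat.Agent.MF.Cosets
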